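import Fermat.Agent.S19.Norm.Pch

/-!
# S19, chapter NORM (core)

Equivariant primitive normalisation of a finite equivariant family of non-zero vectors of `ℚ̄ ^ d`.
`μ(y) = ∏_{P(ρ)=0} B_y(ρ) / ∏_{P'(ρ)=0} B_y(ρ)`, `B_y = ∑ β(y,i) X^i`, `P, P' ∈ ℤ[X]` monic of degrees
`n`, `n + 1` whose roots are far from the roots of all the `B_y`.
-/

set_option autoImplicit false

namespace Fermat.Agent.S19.Norm

open Polynomial

theorem inv_mem_maximalIdeal (A : ValuationSubring Qb) {a : Qb} (ha : a ∉ A) :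
    ∃ b : A, (b : Qb) = a⁻¹ ∧ b ∈ IsLocalRing.maximalIdeal A := by
  have ha0 : a ≠ 0 := by
    rintro rfl
    exact ha A.zero_mem
  have hb : a⁻¹ ∈ A := (A.mem_or_inv_mem a).resolve_left ha
  refine ⟨⟨a⁻¹, hb⟩, rfl, ?_⟩
  rw [IsLocalRing.mem_maximalIdeal, mem_nonunits_iff]
  intro hu
  obtain ⟨b', hb'⟩ := isUnit_iff_exists_inv.1 hu
  apply ha
  have h1 : a⁻¹ * (b' : Qb) = 1 := congrArg (fun z : A => (z : Qb)) hb'
  have h2 : (b' : Qb) = a := by
    field_simp at h1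
    exact h1
  rw [← h2]
  exact b'.2

theorem isUnit_of_not_mem_nonunits (A : ValuationSubring Qb) {x : A}
    (hx : (x : Qb) ∉ A.nonunits) : IsUnit x := by
  rw [ValuationSubring.coe_mem_nonunits_iff, IsLocalRing.mem_maximalIdeal, mem_nonunits_iff,
    not_not] at hx
  exact hx

theorem not_mem_nonunits_of_isUnit (A : ValuationSubring Qb) {x : A}
    (hx : IsUnit x) : (x : Qb) ∉ A.nonunits := by
  rw [ValuationSubring.coe_mem_nonunits_iff, IsLocalRing.mem_maximalIdeal, mem_nonunits_iff,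
    not_not]
  exact hx

/-- `∏ (X - a) = c * Q` with `Q ∈ A[X]` primitive, `Q(r)` a unit if `r` is far from all `a`. -/
theorem exists_prim_factor (A : ValuationSubring Qb) (S : Multiset Qb) :
    ∃ (c : Qb) (Q : A[X]), c ≠ 0 ∧
      (S.map (fun a => X - C a)).prod = C c * Q.map (algebraMap A Qb) ∧
      Q.map (IsLocalRing.residue A) ≠ 0 ∧
      ∀ r : A, (∀ τ ∈ S, τ ∈ A → (r : Qb) - τ ∉ A.nonunits) → IsUnit (Q.eval r) := by
  induction S using Multiset.induction_on with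
  | empty => exact ⟨1, 1, one_ne_zero, by simp, by simp, fun r _ => by simp⟩
  | cons a S ih =>
    obtain ⟨c, Q, hc, hQ1, hQ2, hQ3⟩ := ih
    by_cases ha : a ∈ A
    · refine ⟨c, (X - C (⟨a, ha⟩ : A)) * Q, hc, ?_, ?_, ?_⟩
      · rw [Multiset.map_cons, Multiset.prod_cons, hQ1, Polynomial.map_mul, Polynomial.map_sub,
          map_X, map_C]
        have : algebraMap A Qb ⟨a, ha⟩ = a := rfl
        rw [this]
        ring
      · rw [Polynomial.map_mul, Polynomial.map_sub, map_X, map_C]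
        exact mul_ne_zero (X_sub_C_ne_zero _) hQ2
      · intro r hr
        rw [eval_mul, eval_sub, eval_X, eval_C]
        refine IsUnit.mul ?_ (hQ3 r fun τ hτ => hr τ (Multiset.mem_cons_of_mem hτ))
        exact isUnit_of_not_mem_nonunits A (hr a (Multiset.mem_cons_self a S) ha)
    · obtain ⟨b, hb1, hb2⟩ := inv_mem_maximalIdeal A ha
      have ha0 : a ≠ 0 := by
        rintro rfl
        exact ha A.zero_mem
      refine ⟨-a * c, (1 - C b * X) * Q, mul_ne_zero (neg_ne_zero.2 ha0) hc, ?_, ?_, ?_⟩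
      · rw [Multiset.map_cons, Multiset.prod_cons, hQ1, Polynomial.map_mul, Polynomial.map_sub,
          Polynomial.map_mul, map_X, map_C, Polynomial.map_one]
        have h1 : algebraMap A Qb b = a⁻¹ := hb1
        have h2 : (X - C a : Qb[X]) = C (-a) * (1 - C a⁻¹ * X) := by
          have h3 : C (-a) * (1 - C a⁻¹ * X) = C (-a) + C (a * a⁻¹) * X := by
            rw [C_mul, C_neg]; ring
          rw [h3, mul_inv_cancel₀ ha0, C_1, C_neg]
          ring
        rw [h1, h2, C_mul]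
        ring
      · rw [Polynomial.map_mul, Polynomial.map_sub, Polynomial.map_mul, map_X, map_C,
          Polynomial.map_one, (IsLocalRing.residue_eq_zero_iff b).2 hb2, C_0, zero_mul, sub_zero,
          one_mul]
        exact hQ2
      · intro r hr
        rw [eval_mul, eval_sub, eval_mul, eval_X, eval_C, eval_one]
        refine IsUnit.mul ?_ (hQ3 r fun τ hτ => hr τ (Multiset.mem_cons_of_mem hτ))
        apply IsLocalRing.isUnit_one_sub_self_of_mem_nonunits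
        exact Ideal.mul_mem_right r _ hb2

theorem exists_prim_form (A : ValuationSubring Qb) (B : Qb[X]) (hB : B ≠ 0) :
    ∃ (c : Qb) (Q : A[X]), c ≠ 0 ∧ B = C c * Q.map (algebraMap A Qb) ∧
      Q.map (IsLocalRing.residue A) ≠ 0 ∧
      ∀ r : A, (∀ τ ∈ B.roots, τ ∈ A → (r : Qb) - τ ∉ A.nonunits) → IsUnit (Q.eval r) := by
  obtain ⟨c, Q, hc, hQ1, hQ2, hQ3⟩ := exists_prim_factor A B.roots
  refine ⟨B.leadingCoeff * c, Q, mul_ne_zero (leadingCoeff_ne_zero.2 hB) hc, ?_, hQ2, hQ3⟩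
  have h := (IsAlgClosed.splits B).eq_prod_roots
  rw [hQ1] at h
  rw [C_mul, mul_assoc]
  exact h

/-- `∏_{P(ρ) = 0} B(ρ)`. -/
noncomputable def res (P : ℤ[X]) (B : Qb[X]) : Qb := ((P.aroots Qb).map fun ρ => B.eval ρ).prod

theorem aroots_map_aut (P : ℤ[X]) (σ : Qb ≃ₐ[ℚ] Qb) :
    (P.aroots Qb).map σ = P.aroots Qb := by
  have h1 := (IsAlgClosed.splits (P.map (algebraMap ℤ Qb))).roots_map (σ : Qb →+* Qb)
  rw [Polynomial.map_map] at h1
  have h2 : (σ : Qb →+* Qb).comp (algebraMap ℤ Qb) = algebraMap ℤ Qb := RingHom.ext_int _ _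
  rw [h2] at h1
  exact h1.symm

theorem res_aut (P : ℤ[X]) (B : Qb[X]) (σ : Qb ≃ₐ[ℚ] Qb) :
    σ (res P B) = res P (B.map (σ : Qb →+* Qb)) := by
  unfold res
  rw [map_multiset_prod, Multiset.map_map]
  conv_rhs => rw [← aroots_map_aut P σ, Multiset.map_map]
  congr 1
  apply Multiset.map_congr rfl
  intro ρ _
  simp only [Function.comp]
  rw [eval_map]
  exact (eval₂_at_apply (σ : Qb →+* Qb) ρ).symm

theorem prod_form (A : ValuationSubring Qb) (c : Qb) (g : Qb → Qb) (M : Multiset Qb)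
    (h : ∀ ρ ∈ M, ∃ u : Aˣ, g ρ = c * ((u : A) : Qb)) :
    ∃ u : Aˣ, (M.map g).prod = c ^ (Multiset.card M) * ((u : A) : Qb) := by
  induction M using Multiset.induction_on with
  | empty => exact ⟨1, by simp⟩
  | cons a M ih =>
    obtain ⟨u, hu⟩ := ih fun ρ hρ => h ρ (Multiset.mem_cons_of_mem hρ)
    obtain ⟨w, hw⟩ := h a (Multiset.mem_cons_self a M)
    refine ⟨w * u, ?_⟩
    rw [Multiset.map_cons, Multiset.prod_cons, hu, hw, Multiset.card_cons, pow_succ]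
    push_cast
    ring

theorem res_form (A : ValuationSubring Qb) {P : ℤ[X]} (hP : P.Monic) {B : Qb[X]} {c : Qb}
    {Q : A[X]} (hB : B = C c * Q.map (algebraMap A Qb))
    (hQ : ∀ r : A, (∀ τ ∈ B.roots, τ ∈ A → (r : Qb) - τ ∉ A.nonunits) → IsUnit (Q.eval r))
    (hfar : ∀ ρ : Qb, aeval ρ P = 0 → ρ ∈ A ∧ ∀ τ ∈ B.roots, τ ∈ A → ρ - τ ∉ A.nonunits) :
    ∃ u : Aˣ, res P B = c ^ P.natDegree * ((u : A) : Qb) := by
  have hcard : Multiset.card (P.aroots Qb) = P.natDegree := by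
    apply IsAlgClosed.card_aroots_eq_natDegree_of_leadingCoeff_ne_zero
    rw [hP.leadingCoeff, map_one]
    exact one_ne_zero
  rw [← hcard]
  apply prod_form
  intro ρ hρ
  have hρ0 : aeval ρ P = 0 := (mem_aroots.1 hρ).2
  obtain ⟨h1, h2⟩ := hfar ρ hρ0
  obtain ⟨u, hu⟩ := hQ ⟨ρ, h1⟩ h2
  refine ⟨u, ?_⟩
  rw [hu, hB, eval_mul, eval_C]
  congr 1
  have h3 : (Q.map (algebraMap A Qb)).eval (algebraMap A Qb ⟨ρ, h1⟩) =
      algebraMap A Qb (Q.eval ⟨ρ, h1⟩) := by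
    rw [eval_map]
    exact eval₂_at_apply _ _
  exact h3

/-- `∑ β i X ^ i`. -/
noncomputable def Bp {d : ℕ} (β : Fin d → Qb) : Qb[X] := ∑ i : Fin d, C (β i) * X ^ (i : ℕ)

theorem Bp_coeff {d : ℕ} (β : Fin d → Qb) (i : Fin d) : (Bp β).coeff i = β i := by
  unfold Bp
  rw [finsetSum_coeff]
  simp only [coeff_C_mul_X_pow]
  rw [Finset.sum_eq_single i]
  · simp
  · intro j _ hj
    rw [if_neg]
    intro h
    exact hj (Fin.ext h.symm)
  · intro h
    exact absurd (Finset.mem_univ i) h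

theorem Bp_coeff_of_le {d : ℕ} (β : Fin d → Qb) {n : ℕ} (hn : d ≤ n) : (Bp β).coeff n = 0 := by
  unfold Bp
  rw [finsetSum_coeff]
  apply Finset.sum_eq_zero
  intro j _
  rw [coeff_C_mul_X_pow, if_neg]
  have := j.2
  omega

theorem Bp_map {d : ℕ} (β : Fin d → Qb) (f : Qb →+* Qb) :
    (Bp β).map f = Bp fun i => f (β i) := by
  unfold Bp
  rw [Polynomial.map_sum]
  apply Finset.sum_congr rfl
  intro i _
  rw [Polynomial.map_mul, Polynomial.map_pow, map_X, map_C]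

theorem Bp_ne_zero {d : ℕ} {β : Fin d → Qb} (h : ∃ i, β i ≠ 0) : Bp β ≠ 0 := by
  obtain ⟨i, hi⟩ := h
  intro h0
  apply hi
  rw [← Bp_coeff β i, h0, coeff_zero]

/-- **NORM, core form.** -/
theorem norm_core (ℓ : ℕ) [Fact ℓ.Prime] (Y : Type) [Finite Y] [MulAction (Qb ≃ₐ[ℚ] Qb) Y] (d : ℕ)
    (β : Y → Fin d → Qb) (heq : ∀ (σ : Qb ≃ₐ[ℚ] Qb) y i, β (σ • y) i = σ (β y i))
    (hne : ∀ y, ∃ i, β y i ≠ 0) :
    ∃ μ : Y → Qb, (∀ (σ : Qb ≃ₐ[ℚ] Qb) y, μ (σ • y) = σ (μ y)) ∧ (∀ y, μ y ≠ 0) ∧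
      ∀ A : ValuationSubring Qb, A.LiesOverPrime ℓ → ∀ y,
        (∀ i, μ y * β y i ∈ A) ∧ ∃ i, μ y * β y i ∉ A.nonunits := by
  classical
  cases nonempty_fintype Y
  set T : Finset Qb := Finset.univ.biUnion fun y : Y => (Bp (β y)).roots.toFinset with hT
  have hTmem : ∀ y, ∀ τ ∈ (Bp (β y)).roots, τ ∈ T := by
    intro y τ hτ
    rw [hT, Finset.mem_biUnion]
    exact ⟨y, Finset.mem_univ y, Multiset.mem_toFinset.2 hτ⟩
  obtain ⟨n0, hn0⟩ := pch_strong ℓ T
  obtain ⟨P1, hP1m, hP1d, hP1⟩ := hn0 n0 le_rfl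
  obtain ⟨P2, hP2m, hP2d, hP2⟩ := hn0 (n0 + 1) (Nat.le_succ n0)
  -- the local shape of `μ`
  have key : ∀ A : ValuationSubring Qb, A.LiesOverPrime ℓ → ∀ y, ∃ (c : Qb) (Q : A[X]) (u : Aˣ),
      c ≠ 0 ∧ Bp (β y) = C c * Q.map (algebraMap A Qb) ∧ Q.map (IsLocalRing.residue A) ≠ 0 ∧
      res P1 (Bp (β y)) / res P2 (Bp (β y)) = c⁻¹ * ((u : A) : Qb) := by
    intro A hA y
    obtain ⟨c, Q, hc, hB, hQ1, hQ2⟩ := exists_prim_form A (Bp (β y)) (Bp_ne_zero (hne y))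
    obtain ⟨u1, hu1⟩ := res_form A hP1m hB hQ2 fun ρ hρ =>
      ⟨(hP1 A hA ρ hρ).1, fun τ hτ => (hP1 A hA ρ hρ).2 τ (hTmem y τ hτ)⟩
    obtain ⟨u2, hu2⟩ := res_form A hP2m hB hQ2 fun ρ hρ =>
      ⟨(hP2 A hA ρ hρ).1, fun τ hτ => (hP2 A hA ρ hρ).2 τ (hTmem y τ hτ)⟩
    refine ⟨c, Q, u1 * u2⁻¹, hc, hB, hQ1, ?_⟩
    rw [hu1, hu2, hP1d, hP2d]
    have h2 : ((u2 : A) : Qb) * (((u2⁻¹ : Aˣ) : A) : Qb) = 1 := by
      have : (u2 : A) * ((u2⁻¹ : Aˣ) : A) = 1 := by simp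
      exact_mod_cast congrArg (fun z : A => (z : Qb)) this
    have h3 : ((u2 : A) : Qb) ≠ 0 := left_ne_zero_of_mul_eq_one h2
    have h4 : (((u2⁻¹ : Aˣ) : A) : Qb) = (((u2 : A) : Qb))⁻¹ := eq_inv_of_mul_eq_one_right h2
    push_cast
    rw [h4]
    field_simp
    ring
  refine ⟨fun y => res P1 (Bp (β y)) / res P2 (Bp (β y)), ?_, ?_, ?_⟩
  · intro σ y
    have h1 : Bp (β (σ • y)) = (Bp (β y)).map (σ : Qb →+* Qb) := by
      rw [Bp_map]
      congr 1
      funext i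
      exact heq σ y i
    simp only
    rw [h1, map_div₀, res_aut, res_aut]
  · intro y
    obtain ⟨A, hA⟩ := Fermat.Agent.S54.exists_liesOverPrime (Fact.out : ℓ.Prime)
    obtain ⟨c, Q, u, hc, -, -, hμ⟩ := key A hA y
    simp only
    rw [hμ]
    refine mul_ne_zero (inv_ne_zero hc) ?_
    intro h0
    have : (u : A) = 0 := Subtype.ext h0
    exact u.ne_zero this
  · intro A hA y
    obtain ⟨c, Q, u, hc, hB, hQ, hμ⟩ := key A hA y
    simp only
    have hβ : ∀ i : Fin d, res P1 (Bp (β y)) / res P2 (Bp (β y)) * β y i =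
        (((u : A) * Q.coeff i : A) : Qb) := by
      intro i
      rw [hμ, ← Bp_coeff (β y) i, hB, coeff_C_mul, coeff_map]
      have : algebraMap A Qb (Q.coeff i) = ((Q.coeff i : A) : Qb) := rfl
      rw [this]
      push_cast
      field_simp
    refine ⟨fun i => ?_, ?_⟩
    · rw [hβ i]
      exact Subtype.property _
    · obtain ⟨n, hn⟩ : ∃ n, IsLocalRing.residue A (Q.coeff n) ≠ 0 := by
        by_contra hcon
        push Not at hcon
        apply hQ
        ext n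
        rw [coeff_map, hcon n, coeff_zero]
      have hun : IsUnit (Q.coeff n) := by
        by_contra hnu
        exact hn ((IsLocalRing.residue_eq_zero_iff _).2 hnu)
      have hnd : n < d := by
        by_contra hnd
        have h0 := Bp_coeff_of_le (β y) (not_lt.1 hnd)
        rw [hB, coeff_C_mul, coeff_map] at h0
        have h1 : algebraMap A Qb (Q.coeff n) = 0 := (mul_eq_zero.1 h0).resolve_left hc
        have h2 : Q.coeff n = 0 := Subtype.ext h1
        rw [h2] at hun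
        exact not_isUnit_zero hun
      refine ⟨⟨n, hnd⟩, ?_⟩
      rw [hβ ⟨n, hnd⟩]
      exact not_mem_nonunits_of_isUnit A (u.isUnit.mul hun)

end Fermat.Agent.S19.Norm
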