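import Fermat.Agent.S19.Defs
import Fermat.Agent.S19.Norm.Core

/-!
# S19 : chapters NORM and PCH in the exact form of `S19/Defs.lean`
-/

set_option autoImplicit false

namespace Fermat.Agent.S19

open Polynomial

/-- **NORM**. -/
theorem norm : NormStatement := by
  intro ℓ _ Y _ _ _ d β heq hne
  exact Norm.norm_core ℓ Y d β heq hne

/-- **PCH**. -/
theorem pch : PchStatement := by
  intro ℓ _ T
  obtain ⟨n0, hn0⟩ := Norm.pch_strong ℓ T
  obtain ⟨P, hP1, hP2, hP3⟩ := hn0 (n0 + 1) (Nat.le_succ n0)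
  refine ⟨P, hP1, by omega, ?_⟩
  intro A hA ρ hρ τ hτ hclose
  obtain ⟨h1, h2⟩ := hP3 A hA ρ hρ
  rcases hclose with ⟨h3, -⟩ | ⟨-, h4, h5⟩
  · exact h3 h1
  · exact h2 τ hτ h4 h5

end Fermat.Agent.S19
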