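import Mathlib
import Fermat.Agent.S54.Frob

/-!
# S19, chapter PCH (core)

For a finite set `T ⊆ ℚ̄` and a prime `ℓ` there are monic integer polynomials of every large degree
all of whose roots are far from `T` at every valuation ring of `ℚ̄` above `ℓ`.
-/

set_option autoImplicit false

namespace Fermat.Agent.S19.Norm

open Polynomial

/-- `ℚ̄`. -/
abbrev Qb : Type := AlgebraicClosure ℚ

theorem exists_prim (τ : Qb) : ∃ g : ℤ[X], g.IsPrimitive ∧ aeval τ g = 0 := by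
  have h1 : IsAlgebraic ℚ τ := (AlgebraicClosure.isAlgebraic ℚ).isAlgebraic τ
  have h2 : IsAlgebraic ℤ τ := (IsFractionRing.isAlgebraic_iff ℤ ℚ Qb).2 h1
  obtain ⟨p, hp0, hp⟩ := h2
  exact ⟨p.primPart, p.isPrimitive_primPart, aeval_primPart_eq_zero hp0 hp⟩

theorem exists_prim_finset (T : Finset Qb) :
    ∃ G : ℤ[X], G.IsPrimitive ∧ ∀ τ ∈ T, aeval τ G = 0 := by
  classical
  induction T using Finset.induction_on with
  | empty => exact ⟨1, isPrimitive_one, by simp⟩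
  | insert a s ha ih =>
    obtain ⟨G, hG, hG0⟩ := ih
    obtain ⟨g, hg, hg0⟩ := exists_prim a
    refine ⟨g * G, hg.mul hG, ?_⟩
    intro τ hτ
    rw [Finset.mem_insert] at hτ
    rcases hτ with rfl | hτ
    · rw [map_mul, hg0, zero_mul]
    · rw [map_mul, hG0 τ hτ, mul_zero]

theorem map_ne_zero_of_isPrimitive (ℓ : ℕ) [Fact ℓ.Prime] {G : ℤ[X]} (hG : G.IsPrimitive) :
    G.map (Int.castRingHom (ZMod ℓ)) ≠ 0 := by
  intro h0
  have h1 : C (ℓ : ℤ) ∣ G := by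
    rw [C_dvd_iff_dvd_coeff]
    intro i
    have : (G.map (Int.castRingHom (ZMod ℓ))).coeff i = 0 := by rw [h0, coeff_zero]
    rw [coeff_map] at this
    exact (ZMod.intCast_zmod_eq_zero_iff_dvd _ ℓ).1 this
  have h2 : IsUnit (ℓ : ℤ) := hG _ h1
  have h3 := Int.isUnit_iff.1 h2
  have h4 : 2 ≤ ℓ := (Fact.out : ℓ.Prime).two_le
  omega

theorem exists_monic (ℓ : ℕ) [Fact ℓ.Prime] {G : ℤ[X]} (hG : G.IsPrimitive) :
    ∃ n0 : ℕ, ∀ n, n0 ≤ n → ∃ P W H : ℤ[X], P.Monic ∧ P.natDegree = n ∧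
      P = W * G + 1 + C (ℓ : ℤ) * H := by
  set f : ℤ →+* ZMod ℓ := Int.castRingHom (ZMod ℓ) with hf
  have hsurj : Function.Surjective f := ZMod.intCast_surjective
  set Gb := G.map f with hGb
  have hGb0 : Gb ≠ 0 := map_ne_zero_of_isPrimitive ℓ hG
  refine ⟨Gb.natDegree + 1, fun n hn => ?_⟩
  obtain ⟨k, rfl⟩ : ∃ k, n = k + 1 + Gb.natDegree := ⟨n - (Gb.natDegree + 1), by omega⟩
  have hm1 : (Gb * C Gb.leadingCoeff⁻¹).Monic := monic_mul_leadingCoeff_inv hGb0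
  have hd1 : (Gb * C Gb.leadingCoeff⁻¹).natDegree = Gb.natDegree :=
    natDegree_mul_leadingCoeff_inv Gb hGb0
  have hm2 : (X ^ (k + 1) * (Gb * C Gb.leadingCoeff⁻¹)).Monic := (monic_X_pow _).mul hm1
  have hd2 : (X ^ (k + 1) * (Gb * C Gb.leadingCoeff⁻¹)).natDegree = k + 1 + Gb.natDegree := by
    rw [(monic_X_pow _).natDegree_mul hm1, natDegree_X_pow, hd1]
  have hlt : (1 : (ZMod ℓ)[X]).degree < (X ^ (k + 1) * (Gb * C Gb.leadingCoeff⁻¹)).degree := by
    rw [degree_one, degree_eq_natDegree hm2.ne_zero, hd2]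
    exact_mod_cast (by omega : 0 < k + 1 + Gb.natDegree)
  have hm3 : (X ^ (k + 1) * (Gb * C Gb.leadingCoeff⁻¹) + 1).Monic := hm2.add_of_left hlt
  have hd3 : (X ^ (k + 1) * (Gb * C Gb.leadingCoeff⁻¹) + 1).natDegree = k + 1 + Gb.natDegree := by
    rw [natDegree_add_eq_left_of_degree_lt hlt, hd2]
  obtain ⟨P, hP1, hP2, hP3⟩ := lifts_and_natDegree_eq_and_monic
    ((mem_lifts _).2 (map_surjective f hsurj _)) hm3
  obtain ⟨W, hW⟩ := map_surjective f hsurj (X ^ (k + 1) * C Gb.leadingCoeff⁻¹)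
  have hdvd : C (ℓ : ℤ) ∣ P - (W * G + 1) := by
    rw [C_dvd_iff_dvd_coeff]
    intro i
    have h0 : (P - (W * G + 1)).map f = 0 := by
      rw [Polynomial.map_sub, Polynomial.map_add, Polynomial.map_mul, Polynomial.map_one, hP1, hW,
        ← hGb]
      ring
    have : ((P - (W * G + 1)).map f).coeff i = 0 := by rw [h0, coeff_zero]
    rw [coeff_map] at this
    exact (ZMod.intCast_zmod_eq_zero_iff_dvd _ ℓ).1 this
  obtain ⟨H, hH⟩ := hdvd
  exact ⟨P, W, H, hP3, hP2.trans hd3, by rw [← hH]; ring⟩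

/-- an element of `ℚ̄` integral over `ℤ` lies in every valuation subring. -/
theorem mem_of_isIntegral (A : ValuationSubring Qb) {ρ : Qb} (h : IsIntegral ℤ ρ) : ρ ∈ A := by
  have h1 : IsIntegral A ρ := h.tower_top
  obtain ⟨y, hy⟩ := IsIntegrallyClosed.isIntegral_iff.1 h1
  rw [← hy]
  exact y.2

theorem aeval_coe (A : ValuationSubring Qb) (t : A) (P : ℤ[X]) :
    aeval (t : Qb) P = ((aeval t P : A) : Qb) :=
  aeval_algebraMap_apply Qb t P

/-- **PCH, strong form.** -/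
theorem pch_strong (ℓ : ℕ) [Fact ℓ.Prime] (T : Finset Qb) :
    ∃ n0 : ℕ, ∀ n, n0 ≤ n → ∃ P : ℤ[X], P.Monic ∧ P.natDegree = n ∧
      ∀ A : ValuationSubring Qb, A.LiesOverPrime ℓ → ∀ ρ : Qb, aeval ρ P = 0 →
        ρ ∈ A ∧ ∀ τ ∈ T, τ ∈ A → ρ - τ ∉ A.nonunits := by
  obtain ⟨G, hG, hG0⟩ := exists_prim_finset T
  obtain ⟨n0, hn0⟩ := exists_monic ℓ hG
  refine ⟨n0, fun n hn => ?_⟩
  obtain ⟨P, W, H, hP1, hP2, hP3⟩ := hn0 n hn
  refine ⟨P, hP1, hP2, fun A hA ρ hρ => ?_⟩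
  have hρA : ρ ∈ A := mem_of_isIntegral A ⟨P, hP1, by rw [← aeval_def]; exact hρ⟩
  refine ⟨hρA, fun τ hτ hτA hnu => ?_⟩
  set r : A := ⟨ρ, hρA⟩ with hr
  set t : A := ⟨τ, hτA⟩ with ht
  have hr0 : aeval r P = 0 := by
    apply Subtype.ext
    rw [← aeval_coe]
    exact hρ
  have ht0 : aeval t G = 0 := by
    apply Subtype.ext
    rw [← aeval_coe]
    exact hG0 τ hτ
  have ht1 : aeval t P = 1 + (ℓ : A) * aeval t H := by
    rw [hP3, map_add, map_add, map_mul, map_mul, ht0, mul_zero, zero_add, map_one, aeval_C]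
    simp
  have hdvd : r - t ∣ aeval r P - aeval t P := by
    rw [aeval_def, aeval_def, eval₂_eq_eval_map, eval₂_eq_eval_map]
    exact sub_dvd_eval_sub _ _ _
  have hrt : r - t ∈ IsLocalRing.maximalIdeal A := by
    rw [← ValuationSubring.coe_mem_nonunits_iff]
    exact hnu
  have hl : (ℓ : A) ∈ IsLocalRing.maximalIdeal A := by
    rw [← ValuationSubring.coe_mem_nonunits_iff]
    exact hA
  have h1 : aeval r P - aeval t P ∈ IsLocalRing.maximalIdeal A :=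
    Ideal.mem_of_dvd _ hdvd hrt
  rw [hr0, ht1, zero_sub] at h1
  have h2 : (1 : A) ∈ IsLocalRing.maximalIdeal A := by
    have h3 := Ideal.add_mem _ (Ideal.neg_mem_iff _ |>.1 h1)
      (Ideal.neg_mem_iff _ |>.2 (Ideal.mul_mem_right (aeval t H) _ hl))
    have h4 : (1 + (ℓ : A) * aeval t H) + -((ℓ : A) * aeval t H) = 1 := by ring
    rwa [h4] at h3
  exact (Ideal.ne_top_iff_one _).1 (IsLocalRing.maximalIdeal.isMaximal A).ne_top h2

end Fermat.Agent.S19.Norm
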